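import Mathlib

set_option autoImplicit false

namespace Fermat.Agent.S53_helper39

open Matrix

section TwoByTwo

variable {A : Type*} [CommRing A]

theorem diag_conj (u v : A) (x : Matrix (Fin 2) (Fin 2) A) :
    !![1, 0; 0, u] * x * !![1, 0; 0, v] = !![x 0 0, x 0 1 * v; u * x 1 0, u * x 1 1 * v] := by
  rw [Matrix.eta_fin_two x]
  simp

theorem tr_E_mul (x : Matrix (Fin 2) (Fin 2) A) : (!![(1:A), 0; 0, 0] * x).trace = x 0 0 := by
  rw [Matrix.eta_fin_two x]
  simp [Matrix.trace_fin_two]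

theorem tr_E'_mul (x : Matrix (Fin 2) (Fin 2) A) :
    ((1 - !![(1:A), 0; 0, 0]) * x).trace = x 1 1 := by
  rw [Matrix.eta_fin_two x, Matrix.one_fin_two]
  simp [Matrix.trace_fin_two]

theorem tr_x_y (x n : Matrix (Fin 2) (Fin 2) A) :
    (x * ((1 - !![(1:A), 0; 0, 0]) * n * !![(1:A), 0; 0, 0])).trace = x 0 1 * n 1 0 := by
  rw [Matrix.eta_fin_two x, Matrix.eta_fin_two n, Matrix.one_fin_two]
  simp [Matrix.trace_fin_two]

theorem tr_z_x (x m : Matrix (Fin 2) (Fin 2) A) :
    ((!![(1:A), 0; 0, 0] * m * (1 - !![(1:A), 0; 0, 0])) * x).trace = m 0 1 * x 1 0 := by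
  rw [Matrix.eta_fin_two x, Matrix.eta_fin_two m, Matrix.one_fin_two]
  simp [Matrix.trace_fin_two]

/-- Normalized case: if the subring `S` of `M₂(A)` contains `E₁₁`, has all traces in `A₀`, and
contains elements with unit `(0,1)` resp. `(1,0)` entries, then a diagonal conjugation moves
all entries of all elements of `S` into `A₀`. -/
theorem normalized_entries_mem (A₀ : Subring A)
    (hinv : ∀ a ∈ A₀, IsUnit a → ∃ b ∈ A₀, a * b = 1)
    (S : Subring (Matrix (Fin 2) (Fin 2) A))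
    (htr : ∀ x ∈ S, x.trace ∈ A₀)
    (hE : !![(1 : A), 0; 0, 0] ∈ S)
    (m n : Matrix (Fin 2) (Fin 2) A) (hm : m ∈ S) (hn : n ∈ S)
    (hm' : IsUnit (m 0 1)) (hn' : IsUnit (n 1 0)) :
    ∃ u v : A, u * v = 1 ∧
      ∀ x ∈ S, ∀ i j, (!![1, 0; 0, u] * x * !![1, 0; 0, v]) i j ∈ A₀ := by
  have hE' : (1 - !![(1 : A), 0; 0, 0]) ∈ S := S.sub_mem S.one_mem hE
  have hy : (1 - !![(1 : A), 0; 0, 0]) * n * !![(1 : A), 0; 0, 0] ∈ S :=
    S.mul_mem (S.mul_mem hE' hn) hE
  have hz : !![(1 : A), 0; 0, 0] * m * (1 - !![(1 : A), 0; 0, 0]) ∈ S :=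
    S.mul_mem (S.mul_mem hE hm) hE'
  have hw : m 0 1 * n 1 0 ∈ A₀ := by
    have := htr _ (S.mul_mem hz hy)
    rw [tr_z_x] at this
    have h2 : ((1 - !![(1 : A), 0; 0, 0]) * n * !![(1 : A), 0; 0, 0]) 1 0 = n 1 0 := by
      rw [Matrix.eta_fin_two n, Matrix.one_fin_two]; simp
    rwa [h2] at this
  obtain ⟨w', hw'mem, hw'⟩ := hinv _ hw (hm'.mul hn')
  have key : w' * m 0 1 * n 1 0 = 1 := by rw [mul_assoc, mul_comm w', hw']
  refine ⟨w' * m 0 1, n 1 0, key, ?_⟩
  intro x hx i j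
  have h00 : x 0 0 ∈ A₀ := by
    have := htr _ (S.mul_mem hE hx); rwa [tr_E_mul] at this
  have h11 : x 1 1 ∈ A₀ := by
    have := htr _ (S.mul_mem hE' hx); rwa [tr_E'_mul] at this
  have h01 : x 0 1 * n 1 0 ∈ A₀ := by
    have := htr _ (S.mul_mem hx hy); rwa [tr_x_y] at this
  have h10 : m 0 1 * x 1 0 ∈ A₀ := by
    have := htr _ (S.mul_mem hz hx); rwa [tr_z_x] at this
  rw [diag_conj]
  fin_cases i <;> fin_cases j
  · simpa using h00
  · simpa using h01
  · have : w' * m 0 1 * x 1 0 ∈ A₀ := by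
      rw [mul_assoc]; exact A₀.mul_mem hw'mem h10
    simpa using this
  · have : w' * m 0 1 * x 1 1 * n 1 0 = x 1 1 := by
      calc w' * m 0 1 * x 1 1 * n 1 0 = (w' * m 0 1 * n 1 0) * x 1 1 := by ring
        _ = x 1 1 := by rw [key, one_mul]
    simpa [this] using h11

theorem pow_apply_mem_pow (I : Ideal A) (x : Matrix (Fin 2) (Fin 2) A)
    (hx : ∀ i j, x i j ∈ I) : ∀ (n : ℕ) (i j : Fin 2), (x ^ n) i j ∈ I ^ n := by
  intro n
  induction n with
  | zero => intro i j; simp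
  | succ n ih =>
    intro i j
    rw [pow_succ x n, pow_succ I n, Matrix.mul_apply]
    exact Ideal.sum_mem _ fun l _ => Ideal.mul_mem_mul (ih i l) (hx l j)

end TwoByTwo

section Local

variable {A : Type*} [CommRing A] [IsLocalRing A]

open IsLocalRing

/-- Conjugation by an invertible matrix as a ring endomorphism of the matrix ring. -/
def conjHom (P Q : Matrix (Fin 2) (Fin 2) A) (hPQ : P * Q = 1) (hQP : Q * P = 1) :
    Matrix (Fin 2) (Fin 2) A →+* Matrix (Fin 2) (Fin 2) A where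
  toFun x := P * x * Q
  map_one' := by rw [mul_one, hPQ]
  map_mul' x y := by
    calc P * (x * y) * Q = P * x * (1 * y) * Q := by rw [one_mul, mul_assoc P x y]
      _ = P * x * (Q * P * y) * Q := by rw [hQP]
      _ = P * x * Q * (P * y * Q) := by simp only [mul_assoc]
  map_zero' := by simp
  map_add' x y := by rw [mul_add, add_mul]

omit [IsLocalRing A] in
theorem conjHom_apply (P Q : Matrix (Fin 2) (Fin 2) A) (hPQ : P * Q = 1) (hQP : Q * P = 1)
    (x : Matrix (Fin 2) (Fin 2) A) : conjHom P Q hPQ hQP x = P * x * Q := rfl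

/-- **Descent to the trace subring (Carayol), subring form.** -/
theorem descent_subring
    (hnil : ∃ n : ℕ, maximalIdeal A ^ n = ⊥)
    (A₀ : Subring A) (hinv : ∀ a ∈ A₀, IsUnit a → ∃ b ∈ A₀, a * b = 1)
    (S : Subring (Matrix (Fin 2) (Fin 2) A))
    (htr : ∀ x ∈ S, x.trace ∈ A₀)
    (hsurj : ∀ y : Matrix (Fin 2) (Fin 2) (ResidueField A),
      ∃ x ∈ S, (residue A).mapMatrix x = y) :
    ∃ P Q : Matrix (Fin 2) (Fin 2) A, P * Q = 1 ∧ Q * P = 1 ∧
      ∀ x ∈ S, ∀ i j, (P * x * Q) i j ∈ A₀ := by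
  classical
  obtain ⟨N, hN⟩ := hnil
  set red : Matrix (Fin 2) (Fin 2) A →+* Matrix (Fin 2) (Fin 2) (ResidueField A) :=
    (residue A).mapMatrix with hred
  have red_apply : ∀ (x : Matrix (Fin 2) (Fin 2) A) i j, red x i j = residue A (x i j) := by
    intro x i j; rfl
  let f : S →+* Matrix (Fin 2) (Fin 2) (ResidueField A) := red.comp S.subtype
  have hker : ∀ x ∈ RingHom.ker f, IsNilpotent x := by
    intro x hx
    rw [RingHom.mem_ker] at hx
    have hent : ∀ i j, (x : Matrix (Fin 2) (Fin 2) A) i j ∈ maximalIdeal A := by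
      intro i j
      have : red (x : Matrix (Fin 2) (Fin 2) A) i j = 0 := by
        have h1 : f x = red (x : Matrix (Fin 2) (Fin 2) A) := rfl
        rw [← h1, hx]; rfl
      rw [red_apply] at this
      exact (residue_eq_zero_iff _).mp this
    refine ⟨N, Subtype.ext ?_⟩
    rw [SubmonoidClass.coe_pow]
    ext i j
    have := pow_apply_mem_pow _ _ hent N i j
    rw [hN] at this
    simpa using this
  -- lift the idempotent E₁₁
  have hE11 : IsIdempotentElem (!![(1 : ResidueField A), 0; 0, 0]) := by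
    rw [IsIdempotentElem, Matrix.mul_fin_two]; simp
  obtain ⟨x0, hx0S, hx0⟩ := hsurj !![(1 : ResidueField A), 0; 0, 0]
  obtain ⟨e', he'idem, he'red⟩ := exists_isIdempotentElem_eq_of_ker_isNilpotent f hker
    !![(1 : ResidueField A), 0; 0, 0] ⟨⟨x0, hx0S⟩, hx0⟩ hE11
  obtain ⟨e, heS⟩ := e'
  have hee : e * e = e := by
    have := congrArg Subtype.val he'idem.eq
    simpa using this
  have hered : red e = !![(1 : ResidueField A), 0; 0, 0] := he'red
  have r00 : residue A (e 0 0) = 1 := by rw [← red_apply, hered]; simp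
  have r01 : residue A (e 0 1) = 0 := by rw [← red_apply, hered]; simp
  have r10 : residue A (e 1 0) = 0 := by rw [← red_apply, hered]; simp
  have r11 : residue A (e 1 1) = 0 := by rw [← red_apply, hered]; simp
  have h00 : e 0 0 * e 0 0 + e 0 1 * e 1 0 = e 0 0 := by
    have := congrFun (congrFun hee 0) 0
    simpa [Matrix.mul_apply, Fin.sum_univ_two] using this
  have h01 : e 0 0 * e 0 1 + e 0 1 * e 1 1 = e 0 1 := by
    have := congrFun (congrFun hee 0) 1
    simpa [Matrix.mul_apply, Fin.sum_univ_two] using this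
  have h10 : e 1 0 * e 0 0 + e 1 1 * e 1 0 = e 1 0 := by
    have := congrFun (congrFun hee 1) 0
    simpa [Matrix.mul_apply, Fin.sum_univ_two] using this
  have h11 : e 1 0 * e 0 1 + e 1 1 * e 1 1 = e 1 1 := by
    have := congrFun (congrFun hee 1) 1
    simpa [Matrix.mul_apply, Fin.sum_univ_two] using this
  set Q₁ : Matrix (Fin 2) (Fin 2) A := !![e 0 0, -(e 0 1); e 1 0, 1 - e 1 1] with hQ₁
  have hdet : Q₁.det = e 0 0 * (1 - e 1 1) + e 0 1 * e 1 0 := by
    rw [hQ₁, Matrix.det_fin_two_of]; ring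
  have hdetunit : IsUnit Q₁.det := by
    have : residue A Q₁.det = 1 := by
      rw [hdet]; simp [r00, r01, r10, r11]
    have hne : residue A Q₁.det ≠ 0 := by rw [this]; exact one_ne_zero
    exact (residue_ne_zero_iff_isUnit _).mp hne
  set P₁ : Matrix (Fin 2) (Fin 2) A := Q₁⁻¹ with hP₁
  have hPQ : P₁ * Q₁ = 1 := Matrix.nonsing_inv_mul _ hdetunit
  have hQP : Q₁ * P₁ = 1 := Matrix.mul_nonsing_inv _ hdetunit
  have heQ : e * Q₁ = Q₁ * !![(1 : A), 0; 0, 0] := by
    rw [hQ₁, Matrix.eta_fin_two e]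
    simp only [Matrix.mul_fin_two]
    ext i j
    fin_cases i <;> fin_cases j <;> simp
    · linear_combination h00
    · linear_combination (-1 : A) * h01
    · linear_combination h10
    · linear_combination (-1 : A) * h11
  have hconj_e : P₁ * e * Q₁ = !![(1 : A), 0; 0, 0] := by
    rw [mul_assoc, heQ, ← mul_assoc, hPQ, one_mul]
  have hredQ : red Q₁ = 1 := by
    ext i j
    rw [red_apply, hQ₁]
    fin_cases i <;> fin_cases j <;> simp [r00, r01, r10, r11]
  have hredP : red P₁ = 1 := by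
    calc red P₁ = red P₁ * red Q₁ := by rw [hredQ, mul_one]
      _ = red (P₁ * Q₁) := (map_mul red _ _).symm
      _ = 1 := by rw [hPQ, map_one]
  set c := conjHom P₁ Q₁ hPQ hQP with hc
  have hredc : ∀ x, red (c x) = red x := by
    intro x
    rw [hc, conjHom_apply, map_mul, map_mul, hredP, hredQ, one_mul, mul_one]
  set S' : Subring (Matrix (Fin 2) (Fin 2) A) := S.map c with hS'
  have htr' : ∀ x ∈ S', x.trace ∈ A₀ := by
    rintro _ ⟨x, hx, rfl⟩
    rw [hc, conjHom_apply, Matrix.trace_mul_cycle, hQP, one_mul]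
    exact htr x hx
  have hES' : !![(1 : A), 0; 0, 0] ∈ S' := ⟨e, heS, hconj_e⟩
  obtain ⟨m, hmS, hm⟩ := hsurj !![(0 : ResidueField A), 1; 0, 0]
  obtain ⟨n, hnS, hn⟩ := hsurj !![(0 : ResidueField A), 0; 1, 0]
  have hm' : IsUnit (c m 0 1) := by
    apply (residue_ne_zero_iff_isUnit _).mp
    rw [← red_apply, hredc, hm]; simp
  have hn' : IsUnit (c n 1 0) := by
    apply (residue_ne_zero_iff_isUnit _).mp
    rw [← red_apply, hredc, hn]; simp
  obtain ⟨u, v, huv, hent⟩ := normalized_entries_mem A₀ hinv S' htr' hES' (c m) (c n)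
    ⟨m, hmS, rfl⟩ ⟨n, hnS, rfl⟩ hm' hn'
  have hvu : v * u = 1 := by rw [mul_comm]; exact huv
  have hDD' : !![1, 0; 0, u] * !![1, 0; 0, v] = (1 : Matrix (Fin 2) (Fin 2) A) := by
    rw [Matrix.one_fin_two]; simp [huv]
  have hD'D : !![1, 0; 0, v] * !![1, 0; 0, u] = (1 : Matrix (Fin 2) (Fin 2) A) := by
    rw [Matrix.one_fin_two]; simp [hvu]
  refine ⟨!![1, 0; 0, u] * P₁, Q₁ * !![1, 0; 0, v], ?_, ?_, ?_⟩
  · calc !![1, 0; 0, u] * P₁ * (Q₁ * !![1, 0; 0, v])
        = !![1, 0; 0, u] * (P₁ * Q₁) * !![1, 0; 0, v] := by simp only [mul_assoc]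
      _ = 1 := by rw [hPQ, mul_one, hDD']
  · calc Q₁ * !![1, 0; 0, v] * (!![1, 0; 0, u] * P₁)
        = Q₁ * (!![1, 0; 0, v] * !![1, 0; 0, u]) * P₁ := by simp only [mul_assoc]
      _ = 1 := by rw [hD'D, mul_one, hQP]
  · intro x hx i j
    have := hent (c x) ⟨x, hx, rfl⟩ i j
    rw [hc, conjHom_apply] at this
    have h2 : !![1, 0; 0, u] * P₁ * x * (Q₁ * !![1, 0; 0, v])
        = !![1, 0; 0, u] * (P₁ * x * Q₁) * !![1, 0; 0, v] := by simp only [mul_assoc]
    rw [h2]; exact this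

/-- **Descent to the trace subring (Carayol), monoid-hom form.** Let `A` be a local ring with
nilpotent maximal ideal, `A₀` a subring closed under inverses of units and surjecting onto the
residue field, and `ρ : G →* M₂(A)` whose image spans `M₂(A)` and whose traces lie in `A₀`.
Then a conjugate of `ρ` has all entries in `A₀`. -/
theorem descent_monoidHom
    (hnil : ∃ n : ℕ, maximalIdeal A ^ n = ⊥)
    (A₀ : Subring A) (hinv : ∀ a ∈ A₀, IsUnit a → ∃ b ∈ A₀, a * b = 1)
    (hres : ∀ a : A, ∃ a₀ ∈ A₀, a - a₀ ∈ maximalIdeal A)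
    {G : Type*} [Monoid G] (ρ : G →* Matrix (Fin 2) (Fin 2) A)
    (hspan : Submodule.span A (Set.range ρ) = ⊤)
    (htr : ∀ g, (ρ g).trace ∈ A₀) :
    ∃ P Q : Matrix (Fin 2) (Fin 2) A, P * Q = 1 ∧ Q * P = 1 ∧
      ∀ g i j, (P * ρ g * Q) i j ∈ A₀ := by
  classical
  set S : Subring (Matrix (Fin 2) (Fin 2) A) :=
    (Algebra.adjoin A₀ (Set.range ρ)).toSubring with hS
  have hmemS : ∀ x, x ∈ S ↔ x ∈ Submodule.span A₀ (Set.range ρ) := by
    intro x
    have h1 : (Submonoid.closure (Set.range ρ) : Set (Matrix (Fin 2) (Fin 2) A)) =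
        Set.range ρ := by
      rw [← MonoidHom.coe_mrange, Submonoid.closure_eq]
    rw [hS, Subalgebra.mem_toSubring, ← Subalgebra.mem_toSubmodule, Algebra.adjoin_eq_span, h1]
  have hρS : ∀ g, ρ g ∈ S := fun g => (hmemS _).mpr (Submodule.subset_span ⟨g, rfl⟩)
  have hsmulS : ∀ (a : A₀) (x : Matrix (Fin 2) (Fin 2) A), x ∈ S → a • x ∈ S := by
    intro a x hx
    rw [hmemS] at hx ⊢
    exact Submodule.smul_mem _ a hx
  have htrS : ∀ x ∈ S, x.trace ∈ A₀ := by
    intro x hx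
    rw [hmemS] at hx
    induction hx using Submodule.span_induction with
    | mem x hx => obtain ⟨g, rfl⟩ := hx; exact htr g
    | zero => simp
    | add x y _ _ hx hy => rw [Matrix.trace_add]; exact A₀.add_mem hx hy
    | smul a x _ hx =>
      rw [Matrix.trace_smul, Subring.smul_def, smul_eq_mul]
      exact A₀.mul_mem a.2 hx
  have hsurj : ∀ y : Matrix (Fin 2) (Fin 2) (ResidueField A),
      ∃ x ∈ S, (residue A).mapMatrix x = y := by
    intro y
    -- lift `y` entrywise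
    have hlift : ∃ y' : Matrix (Fin 2) (Fin 2) A, (residue A).mapMatrix y' = y := by
      refine ⟨Matrix.of fun i j => (residue_surjective (y i j)).choose, ?_⟩
      ext i j
      exact (residue_surjective (y i j)).choose_spec
    obtain ⟨y', rfl⟩ := hlift
    have hy' : y' ∈ Submodule.span A (Set.range ρ) := by rw [hspan]; trivial
    induction hy' using Submodule.span_induction with
    | mem x hx => obtain ⟨g, rfl⟩ := hx; exact ⟨ρ g, hρS g, rfl⟩
    | zero => exact ⟨0, S.zero_mem, rfl⟩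
    | add x y _ _ hx hy =>
      obtain ⟨x', hx'S, hx'⟩ := hx
      obtain ⟨y'', hy'S, hy''⟩ := hy
      exact ⟨x' + y'', S.add_mem hx'S hy'S, by rw [map_add, map_add, hx', hy'']⟩
    | smul a x _ hx =>
      obtain ⟨x', hx'S, hx'⟩ := hx
      obtain ⟨a₀, ha₀, haa₀⟩ := hres a
      refine ⟨(⟨a₀, ha₀⟩ : A₀) • x', hsmulS _ _ hx'S, ?_⟩
      have hra : residue A a₀ = residue A a := by
        have := (residue_eq_zero_iff _).mpr haa₀
        rw [map_sub, sub_eq_zero] at this
        exact this.symm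
      ext i j
      have h1 := congrFun (congrFun hx' i) j
      simp only [RingHom.mapMatrix_apply, Matrix.map_apply] at h1 ⊢
      rw [Matrix.smul_apply, Matrix.smul_apply, Subring.smul_def, smul_eq_mul, smul_eq_mul,
        map_mul, map_mul, hra, h1]
  obtain ⟨P, Q, hPQ, hQP, h⟩ := descent_subring hnil A₀ hinv S htrS hsurj
  exact ⟨P, Q, hPQ, hQP, fun g i j => h (ρ g) (hρS g) i j⟩

end Local

end Fermat.Agent.S53_helper39
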