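import Mathlib

set_option autoImplicit false

noncomputable section

namespace Fermat.Agent.S53_helper39

open IsLocalRing

variable {𝒪 : Type*} [CommRing 𝒪] [IsLocalRing 𝒪] {B : Type*} [CommRing B] [IsLocalRing B]
  [Algebra 𝒪 B]

omit [IsLocalRing 𝒪] in
/-- Nakayama-type lemma for subalgebras of a local algebra with nilpotent maximal ideal and
residue field coming from the base: a subalgebra hitting every element of the maximal ideal
modulo its square is everything. -/
theorem subalgebra_eq_top_of_forall_sub_mem_sq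
    (hres : Function.Surjective (residue B ∘ algebraMap 𝒪 B))
    (hnil : ∃ n : ℕ, maximalIdeal B ^ n = ⊥)
    (B' : Subalgebra 𝒪 B)
    (h : ∀ b ∈ maximalIdeal B, ∃ b' ∈ B', b - b' ∈ maximalIdeal B ^ 2) : B' = ⊤ := by
  set 𝔫 := maximalIdeal B with h𝔫
  -- step 1 : refined form of `h`
  have h1 : ∀ b ∈ 𝔫, ∃ b' ∈ B', b' ∈ 𝔫 ∧ b - b' ∈ 𝔫 ^ 2 := by
    intro b hb
    obtain ⟨b', hb', hbb'⟩ := h b hb
    refine ⟨b', hb', ?_, hbb'⟩
    have h2 : b - b' ∈ 𝔫 := Ideal.pow_le_self two_ne_zero hbb'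
    have : b' = b - (b - b') := by ring
    rw [this]
    exact 𝔫.sub_mem hb h2
  -- step 2 : every element of `𝔫 ^ j` is in `B' ∩ 𝔫 ^ j` modulo `𝔫 ^ (j+1)` for `j ≥ 1`
  have h2 : ∀ j : ℕ, ∀ x ∈ 𝔫 ^ (j + 1), ∃ b' ∈ B', b' ∈ 𝔫 ^ (j + 1) ∧ x - b' ∈ 𝔫 ^ (j + 2) := by
    intro j
    induction j with
    | zero =>
      intro x hx
      rw [zero_add, pow_one] at hx
      obtain ⟨b', hb', hb'n, hxb'⟩ := h1 x hx
      exact ⟨b', hb', by rwa [zero_add, pow_one], hxb'⟩
    | succ j ih =>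
      intro x hx
      rw [pow_succ' 𝔫 (j + 1)] at hx
      refine Submodule.mul_induction_on hx ?_ ?_
      · intro n hn y hy
        obtain ⟨s, hs, hsn, hns⟩ := h1 n hn
        obtain ⟨s', hs', hs'n, hys'⟩ := ih y hy
        refine ⟨s * s', B'.mul_mem hs hs', ?_, ?_⟩
        · rw [pow_succ' 𝔫 (j + 1)]
          exact Ideal.mul_mem_mul hsn hs'n
        · have e : n * y - s * s' = n * (y - s') + (n - s) * s' := by ring
          rw [e]
          refine Ideal.add_mem _ ?_ ?_
          · have : n * (y - s') ∈ 𝔫 * 𝔫 ^ (j + 2) := Ideal.mul_mem_mul hn hys'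
            rwa [← pow_succ' 𝔫 (j + 2)] at this
          · have : (n - s) * s' ∈ 𝔫 ^ 2 * 𝔫 ^ (j + 1) := Ideal.mul_mem_mul hns hs'n
            rw [← pow_add] at this
            have e2 : 2 + (j + 1) = j + 1 + 2 := by ring
            rwa [e2] at this
      · rintro x y ⟨bx, hbx, hbxn, hx⟩ ⟨by', hby, hbyn, hy⟩
        refine ⟨bx + by', B'.add_mem hbx hby, Ideal.add_mem _ hbxn hbyn, ?_⟩
        have e : x + y - (bx + by') = (x - bx) + (y - by') := by ring
        rw [e]
        exact Ideal.add_mem _ hx hy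
  -- step 3 : approximate any element to any order
  have h3 : ∀ j : ℕ, ∀ b : B, ∃ b' ∈ B', b - b' ∈ 𝔫 ^ (j + 1) := by
    intro j
    induction j with
    | zero =>
      intro b
      obtain ⟨a, ha⟩ := hres (residue B b)
      refine ⟨algebraMap 𝒪 B a, B'.algebraMap_mem a, ?_⟩
      rw [zero_add, pow_one, h𝔫, ← residue_eq_zero_iff, map_sub, sub_eq_zero]
      exact ha.symm
    | succ j ih =>
      intro b
      obtain ⟨b', hb', hbb'⟩ := ih b
      obtain ⟨b'', hb'', -, hb3⟩ := h2 j (b - b') hbb'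
      refine ⟨b' + b'', B'.add_mem hb' hb'', ?_⟩
      have e : b - (b' + b'') = b - b' - b'' := by ring
      rw [e]
      exact hb3
  obtain ⟨N, hN⟩ := hnil
  rw [eq_top_iff]
  intro b _
  obtain ⟨b', hb', hbb'⟩ := h3 N b
  have : 𝔫 ^ (N + 1) = ⊥ := by rw [pow_succ, hN, Ideal.bot_mul]
  rw [this, Ideal.mem_bot, sub_eq_zero] at hbb'
  rw [hbb']
  exact hb'

/-- **Separation by a tangent vector.** Let `B` be a local `𝒪`-algebra with nilpotent maximal
ideal whose residue field is that of `𝒪`. If `B'` is a proper `𝒪`-subalgebra then there is an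
`𝒪`-algebra homomorphism `B → k[ε]` (`k` the residue field of `𝒪`) which maps `B'` into `k` but
not all of `B`. -/
theorem exists_algHom_dualNumber_of_ne_top [IsLocalHom (algebraMap 𝒪 B)]
    (hres : Function.Surjective (residue B ∘ algebraMap 𝒪 B))
    (hnil : ∃ n : ℕ, maximalIdeal B ^ n = ⊥)
    (B' : Subalgebra 𝒪 B) (hB' : B' ≠ ⊤) :
    ∃ φ : B →ₐ[𝒪] DualNumber (ResidueField 𝒪),
      (∀ b ∈ B', (φ b).snd = 0) ∧ ∃ b, (φ b).snd ≠ 0 := by
  classical
  set 𝔫 := maximalIdeal B with h𝔫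
  -- an element of `𝔫` not in `B' + 𝔫 ^ 2`
  obtain ⟨b₀, hb₀, hb₀'⟩ : ∃ b₀ ∈ 𝔫, ∀ b' ∈ B', b₀ - b' ∉ 𝔫 ^ 2 := by
    by_contra hcon
    push Not at hcon
    exact hB' (subalgebra_eq_top_of_forall_sub_mem_sq hres hnil B' hcon)
  -- the `𝒪`-submodule `U = B' + 𝔫 ^ 2`
  set U : Submodule 𝒪 B := Subalgebra.toSubmodule B' ⊔ (𝔫 ^ 2).restrictScalars 𝒪 with hU
  have hB'U : ∀ b ∈ B', b ∈ U := fun b hb =>
    Submodule.mem_sup_left ((Subalgebra.mem_toSubmodule B').mpr hb)
  have hsqU : ∀ b ∈ 𝔫 ^ 2, b ∈ U := fun b hb =>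
    Submodule.mem_sup_right ((Submodule.restrictScalars_mem 𝒪 _ _).mpr hb)
  have hb₀U : b₀ ∉ U := by
    intro hmem
    obtain ⟨y, hy, z, hz, hyz⟩ := Submodule.mem_sup.mp hmem
    have hz' : z ∈ 𝔫 ^ 2 := (Submodule.restrictScalars_mem 𝒪 _ _).mp hz
    refine hb₀' y ((Subalgebra.mem_toSubmodule B').mp hy) ?_
    have : b₀ - y = z := by rw [← hyz]; ring
    rw [this]; exact hz'
  -- decomposition `b = c • 1 + n`
  have hdec : ∀ b : B, ∃ c : 𝒪, b - algebraMap 𝒪 B c ∈ 𝔫 := by
    intro b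
    obtain ⟨a, ha⟩ := hres (residue B b)
    refine ⟨a, ?_⟩
    rw [h𝔫, ← residue_eq_zero_iff, map_sub, sub_eq_zero]
    exact ha.symm
  have hmax : ∀ a ∈ maximalIdeal 𝒪, algebraMap 𝒪 B a ∈ 𝔫 := by
    intro a ha
    rw [h𝔫, mem_maximalIdeal, mem_nonunits_iff] at *
    exact fun hu => ha (isUnit_of_map_unit (algebraMap 𝒪 B) a hu)
  -- the quotient is killed by the maximal ideal of `𝒪`
  have htors : Module.IsTorsionBySet 𝒪 (B ⧸ U) (maximalIdeal 𝒪 : Set 𝒪) := by
    intro q a
    obtain ⟨b, rfl⟩ := Submodule.Quotient.mk_surjective U q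
    rw [← Submodule.Quotient.mk_smul, Submodule.Quotient.mk_eq_zero]
    obtain ⟨c, hc⟩ := hdec b
    have e : (a : 𝒪) • b = algebraMap 𝒪 B ((a : 𝒪) * c) +
        algebraMap 𝒪 B (a : 𝒪) * (b - algebraMap 𝒪 B c) := by
      rw [Algebra.smul_def, map_mul]; ring
    rw [e]
    refine U.add_mem (hB'U _ (B'.algebraMap_mem _)) (hsqU _ ?_)
    rw [pow_two]
    exact Ideal.mul_mem_mul (hmax _ a.2) hc
  let _ : Module (ResidueField 𝒪) (B ⧸ U) := htors.module
  have hsmul : ∀ (a : 𝒪) (q : B ⧸ U), (residue 𝒪 a) • q = a • q := fun a q =>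
    htors.mk_smul a q
  have hq₀ : (Submodule.Quotient.mk b₀ : B ⧸ U) ≠ 0 := by
    rw [Ne, Submodule.Quotient.mk_eq_zero]; exact hb₀U
  obtain ⟨f, hf⟩ : ∃ f : Module.Dual (ResidueField 𝒪) (B ⧸ U),
      f (Submodule.Quotient.mk b₀) ≠ 0 := by
    by_contra hcon
    push Not at hcon
    exact hq₀ ((Module.forall_dual_apply_eq_zero_iff (ResidueField 𝒪) _).mp hcon)
  -- the derivation `δ`
  set δ : B → ResidueField 𝒪 := fun b => f (Submodule.Quotient.mk b) with hδ
  have δ_add : ∀ b b', δ (b + b') = δ b + δ b' := fun b b' => by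
    simp only [hδ, Submodule.Quotient.mk_add, map_add]
  have δ_zero_of_mem : ∀ b ∈ U, δ b = 0 := fun b hb => by
    have : (Submodule.Quotient.mk b : B ⧸ U) = 0 := (Submodule.Quotient.mk_eq_zero U).mpr hb
    simp only [hδ, this, map_zero]
  have δ_sub : ∀ b b', δ (b - b') = δ b - δ b' := fun b b' => by
    simp only [hδ, Submodule.Quotient.mk_sub, map_sub]
  have δ_smul : ∀ (a : 𝒪) b, δ (algebraMap 𝒪 B a * b) = residue 𝒪 a * δ b := fun a b => by
    have : (Submodule.Quotient.mk (algebraMap 𝒪 B a * b) : B ⧸ U) =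
        residue 𝒪 a • (Submodule.Quotient.mk b : B ⧸ U) := by
      rw [hsmul, ← Submodule.Quotient.mk_smul, Algebra.smul_def]
    simp only [hδ, this, map_smul, smul_eq_mul]
  -- the residue map to `k`
  have hψbij : Function.Bijective (ResidueField.map (algebraMap 𝒪 B)) := by
    refine ⟨(ResidueField.map (algebraMap 𝒪 B)).injective, fun y => ?_⟩
    obtain ⟨a, ha⟩ := hres y
    exact ⟨residue 𝒪 a, by rw [ResidueField.map_residue]; exact ha⟩
  set e := RingEquiv.ofBijective (ResidueField.map (algebraMap 𝒪 B)) hψbij with he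
  set res : B →+* ResidueField 𝒪 := (e.symm : ResidueField B →+* ResidueField 𝒪).comp (residue B)
    with hresdef
  have res_alg : ∀ a : 𝒪, res (algebraMap 𝒪 B a) = residue 𝒪 a := by
    intro a
    have h1 : e (residue 𝒪 a) = residue B (algebraMap 𝒪 B a) := by
      rw [he, RingEquiv.ofBijective_apply, ResidueField.map_residue]
    simp only [hresdef, RingHom.comp_apply, RingHom.coe_coe]
    rw [← h1, RingEquiv.symm_apply_apply]
  have res_zero : ∀ n ∈ 𝔫, res n = 0 := by
    intro n hn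
    have : residue B n = 0 := (residue_eq_zero_iff n).mpr hn
    simp only [hresdef, RingHom.comp_apply, this, map_zero]
  have res_dec : ∀ (b : B) (c : 𝒪), b - algebraMap 𝒪 B c ∈ 𝔫 → res b = residue 𝒪 c := by
    intro b c hbc
    have := res_zero _ hbc
    rw [map_sub, sub_eq_zero, res_alg] at this
    exact this
  -- the derivation identity
  have δ_mul : ∀ b b', δ (b * b') = res b * δ b' + res b' * δ b := by
    intro b b'
    obtain ⟨c, hc⟩ := hdec b
    obtain ⟨c', hc'⟩ := hdec b'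
    have e1 : b * b' = algebraMap 𝒪 B (c * c') + algebraMap 𝒪 B c * (b' - algebraMap 𝒪 B c') +
        algebraMap 𝒪 B c' * (b - algebraMap 𝒪 B c) +
        (b - algebraMap 𝒪 B c) * (b' - algebraMap 𝒪 B c') := by
      rw [map_mul]; ring
    have z1 : δ (algebraMap 𝒪 B (c * c')) = 0 :=
      δ_zero_of_mem _ (hB'U _ (B'.algebraMap_mem _))
    have z2 : δ ((b - algebraMap 𝒪 B c) * (b' - algebraMap 𝒪 B c')) = 0 := by
      refine δ_zero_of_mem _ (hsqU _ ?_)
      rw [pow_two]; exact Ideal.mul_mem_mul hc hc'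
    have z3 : ∀ a : 𝒪, δ (algebraMap 𝒪 B a) = 0 := fun a =>
      δ_zero_of_mem _ (hB'U _ (B'.algebraMap_mem _))
    rw [e1, δ_add, δ_add, δ_add, z1, z2, δ_smul, δ_smul, δ_sub, δ_sub, z3, z3,
      res_dec b c hc, res_dec b' c' hc']
    ring
  have δ_one : δ 1 = 0 := δ_zero_of_mem _ (hB'U _ B'.one_mem)
  -- assemble the algebra homomorphism
  let φ : B →ₐ[𝒪] DualNumber (ResidueField 𝒪) :=
    { toFun := fun b => TrivSqZeroExt.inl (res b) + TrivSqZeroExt.inr (δ b)
      map_one' := by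
        apply TrivSqZeroExt.ext
        · simp
        · simp [δ_one]
      map_mul' := fun b b' => by
        apply TrivSqZeroExt.ext
        · simp
        · simp [δ_mul, mul_comm]
      map_zero' := by
        apply TrivSqZeroExt.ext
        · simp
        · have : δ 0 = 0 := δ_zero_of_mem _ U.zero_mem
          simp [this]
      map_add' := fun b b' => by
        apply TrivSqZeroExt.ext
        · simp
        · simp [δ_add]
      commutes' := fun a => by
        have z3 : δ (algebraMap 𝒪 B a) = 0 :=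
          δ_zero_of_mem _ (hB'U _ (B'.algebraMap_mem _))
        apply TrivSqZeroExt.ext
        · simp only [TrivSqZeroExt.fst_add, TrivSqZeroExt.fst_inl, TrivSqZeroExt.fst_inr,
            add_zero, res_alg]
          rfl
        · simp only [TrivSqZeroExt.snd_add, TrivSqZeroExt.snd_inl, TrivSqZeroExt.snd_inr,
            zero_add, z3]
          rfl }
  have φ_snd : ∀ b, (φ b).snd = δ b := fun b => by
    show (TrivSqZeroExt.inl (res b) + TrivSqZeroExt.inr (δ b) :
      DualNumber (ResidueField 𝒪)).snd = δ b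
    simp
  refine ⟨φ, fun b hb => ?_, b₀, ?_⟩
  · rw [φ_snd]; exact δ_zero_of_mem _ (hB'U _ hb)
  · rw [φ_snd]; exact hf

end Fermat.Agent.S53_helper39

end
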