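import Fermat.Agent.S53_helper35.MatDict
import Fermat.Agent.S53_helper39.Descent

set_option autoImplicit false

noncomputable section

namespace Fermat.Agent.S53_helper39

open Fermat.Agent.S53_helper35 IsLocalRing

variable {A₀ A : Type} [CommRing A₀] [IsLocalRing A₀] [CommRing A] [IsLocalRing A]

/-- **Carayol descent, matrix form over `GQ`.** If `ι : A₀ → A` is an injective local
homomorphism of local rings inducing a surjection on residue fields, the maximal ideal of `A` is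
nilpotent, and `r : GQ →* M₂(A)` is a continuous representation spanning `M₂(A)` all of whose
traces come from `A₀`, then a conjugate of `r` is the image of a continuous representation
over `A₀`. -/
theorem exists_descent_mat (ι : A₀ →+* A) (hι : IsLocalHom ι) (hinj : Function.Injective ι)
    (hnil : ∃ n : ℕ, maximalIdeal A ^ n = ⊥)
    (hres : ∀ a : A, ∃ a₀ : A₀, a - ι a₀ ∈ maximalIdeal A)
    (r : GQ →* Matrix (Fin 2) (Fin 2) A) (hr : MatCont r)
    (hspan : Submodule.span A (Set.range r) = ⊤)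
    (htr : ∀ σ, ∃ t : A₀, ι t = (r σ).trace) :
    ∃ (r₀ : GQ →* Matrix (Fin 2) (Fin 2) A₀) (_ : MatCont r₀) (P : GL (Fin 2) A),
      mapMat ι r₀ = conjMat P r := by
  classical
  have hinv : ∀ a ∈ ι.range, IsUnit a → ∃ b ∈ ι.range, a * b = 1 := by
    rintro _ ⟨a₀, rfl⟩ ha
    have ha₀ : IsUnit a₀ := hι.map_nonunit a₀ ha
    obtain ⟨u, rfl⟩ := ha₀
    exact ⟨ι ((u⁻¹ : A₀ˣ) : A₀), ⟨_, rfl⟩, by rw [← map_mul, Units.mul_inv, map_one]⟩
  have hres' : ∀ a : A, ∃ a₀ ∈ ι.range, a - a₀ ∈ maximalIdeal A := by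
    intro a
    obtain ⟨a₀, ha₀⟩ := hres a
    exact ⟨ι a₀, ⟨a₀, rfl⟩, ha₀⟩
  have htr' : ∀ σ, (r σ).trace ∈ ι.range := fun σ => by
    obtain ⟨t, ht⟩ := htr σ
    exact ⟨t, ht⟩
  obtain ⟨P, Q, hPQ, hQP, hent⟩ := descent_monoidHom hnil ι.range hinv hres' r hspan htr'
  let Pu : GL (Fin 2) A := ⟨P, Q, hPQ, hQP⟩
  have hconj : ∀ σ, conjMat Pu r σ = P * r σ * Q := fun σ => rfl
  choose f hf using hent
  let F : GQ → Matrix (Fin 2) (Fin 2) A₀ := fun σ => Matrix.of fun i j => f σ i j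
  have hF : ∀ σ, (F σ).map ι = conjMat Pu r σ := by
    intro σ
    ext i j
    rw [Matrix.map_apply, hconj]
    exact hf σ i j
  have hmapinj : Function.Injective fun M : Matrix (Fin 2) (Fin 2) A₀ => M.map ι :=
    Matrix.map_injective hinj
  let r₀ : GQ →* Matrix (Fin 2) (Fin 2) A₀ :=
    { toFun := F
      map_one' := by
        apply hmapinj
        show (F 1).map ι = (1 : Matrix (Fin 2) (Fin 2) A₀).map ι
        rw [hF, map_one]
        exact ((RingHom.mapMatrix ι).map_one).symm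
      map_mul' := fun σ τ => by
        apply hmapinj
        show (F (σ * τ)).map ι = (F σ * F τ).map ι
        rw [Matrix.map_mul, hF, hF, hF, map_mul] }
  have hr₀map : mapMat ι r₀ = conjMat Pu r := MonoidHom.ext fun σ => by
    rw [mapMat_apply]; exact hF σ
  have hcont : MatCont (conjMat Pu r) := matCont_conjMat Pu hr
  obtain ⟨N, hN⟩ := hnil
  refine ⟨r₀, ?_, Pu, hr₀map⟩
  intro n
  obtain ⟨L, hL, h⟩ := hcont N
  refine ⟨L, hL, fun σ hσ i j => ?_⟩
  have h1 : conjMat Pu r σ = 1 := by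
    ext i j
    have := h σ hσ i j
    rw [hN, Ideal.mem_bot, Matrix.sub_apply, sub_eq_zero] at this
    exact this
  have h2 : r₀ σ = 1 := by
    apply hmapinj
    show (r₀ σ).map ι = (1 : Matrix (Fin 2) (Fin 2) A₀).map ι
    have h3 : (r₀ σ).map ι = conjMat Pu r σ := hF σ
    rw [h3, h1]
    exact ((RingHom.mapMatrix ι).map_one).symm
  rw [h2, sub_self]
  exact Ideal.zero_mem _

/-- **Carayol descent on the prelude structures.** -/
theorem exists_descent (ι : A₀ →+* A) (hι : IsLocalHom ι) (hinj : Function.Injective ι)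
    (hnil : ∃ n : ℕ, maximalIdeal A ^ n = ⊥)
    (hres : ∀ a : A, ∃ a₀ : A₀, a - ι a₀ ∈ maximalIdeal A)
    (ρ : GaloisRepAdic A)
    (hspan : Submodule.span A (Set.range ρ.ρ) = ⊤)
    (htr : ∀ σ, ∃ t : A₀, ι t = LinearMap.trace A ρ.V (ρ.ρ σ)) :
    ∃ ρ₀ : GaloisRepAdic A₀, (ρ₀.baseChangeAlong ι hι).IsEquiv ρ := by
  classical
  set b := stdBasis ρ
  set r := toMat ρ b
  have hr : MatCont r := matCont_toMat ρ b
  have hspan' : Submodule.span A (Set.range r) = ⊤ := by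
    let e : Module.End A ρ.V →ₗ[A] Matrix (Fin 2) (Fin 2) A :=
      ((LinearMap.toMatrixAlgEquiv b : Module.End A ρ.V ≃ₐ[A]
        Matrix (Fin 2) (Fin 2) A).toLinearEquiv : Module.End A ρ.V →ₗ[A] Matrix (Fin 2) (Fin 2) A)
    have he : Function.Surjective e :=
      (LinearMap.toMatrixAlgEquiv b : Module.End A ρ.V ≃ₐ[A]
        Matrix (Fin 2) (Fin 2) A).toLinearEquiv.surjective
    have hrange : Set.range r = e '' Set.range ρ.ρ := by
      ext M
      constructor
      · rintro ⟨σ, rfl⟩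
        exact ⟨ρ.ρ σ, ⟨σ, rfl⟩, rfl⟩
      · rintro ⟨_, ⟨σ, rfl⟩, rfl⟩
        exact ⟨σ, rfl⟩
    have h1 := Submodule.map_span e (Set.range ρ.ρ)
    rw [hspan, Submodule.map_top, LinearMap.range_eq_top.mpr he] at h1
    rw [hrange]
    exact h1.symm
  have htr' : ∀ σ, ∃ t : A₀, ι t = (r σ).trace := by
    intro σ
    obtain ⟨t, ht⟩ := htr σ
    refine ⟨t, ?_⟩
    rw [ht, toMat_apply, LinearMap.trace_eq_matrix_trace A b]
  obtain ⟨r₀, hr₀, P, hP⟩ := exists_descent_mat ι hι hinj hnil hres r hr hspan' htr'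
  refine ⟨ofMat r₀ hr₀, ?_⟩
  obtain ⟨e1⟩ := baseChangeAlong_ofMat_isEquiv ι hι r₀ hr₀
  obtain ⟨e2⟩ := isEquiv_ofMat_of_eq (matCont_mapMat ι hι hr₀) (matCont_conjMat P hr) hP
  obtain ⟨e3⟩ := isEquiv_ofMat_conjMat P hr
  exact ⟨(e1.trans e2).trans (e3.symm.trans (equivOfMatToMat ρ b).symm)⟩

end Fermat.Agent.S53_helper39

end
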